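import Mathlib

set_option autoImplicit false

namespace Fermat.Agent.S51_helper89

theorem five_dvd_both (A B c4 Δ : ℤ) (hA : ¬ (5 : ℤ) ∣ A) (hB5 : (5 : ℤ) ∣ B)
    (hB125 : ¬ (125 : ℤ) ∣ B) (h : A * c4 ^ 3 = B * Δ) : (5 : ℤ) ∣ c4 ∧ (5 : ℤ) ∣ Δ := by
  have h5 : Prime (5 : ℤ) := by norm_num
  have hc4 : (5 : ℤ) ∣ c4 := by
    have h1 : (5 : ℤ) ∣ A * c4 ^ 3 := by
      rw [h]
      exact Dvd.dvd.mul_right hB5 Δ
    rcases h5.dvd_or_dvd h1 with h2 | h2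
    · exact absurd h2 hA
    · exact h5.dvd_of_dvd_pow h2
  refine ⟨hc4, ?_⟩
  by_contra hΔ
  obtain ⟨k, rfl⟩ := hc4
  have hcop : IsCoprime ((5 : ℤ) ^ 3) Δ :=
    IsCoprime.pow_left ((Prime.coprime_iff_not_dvd h5).mpr hΔ)
  have hdvd : (5 : ℤ) ^ 3 ∣ B * Δ := ⟨A * k ^ 3, by rw [← h]; ring⟩
  have := hcop.dvd_of_dvd_mul_right hdvd
  exact hB125 (by simpa using this)

theorem endgame (c4 Δ : ℤ) (hss : ∀ p : ℕ, p.Prime → (p : ℤ) ∣ Δ → ¬ (p : ℤ) ∣ c4)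
    (t : ℚ) (ht : t = -10 ∨ t = -40 ∨ t = -25 / 2 ∨ t = -25 / 8)
    (hj : (c4 : ℚ) ^ 3 * t = (Δ : ℚ) * (t ^ 2 + 10 * t + 5) ^ 3) : False := by
  have key : (5 : ℤ) ∣ c4 ∧ (5 : ℤ) ∣ Δ := by
    rcases ht with rfl | rfl | rfl | rfl
    · have h : (-2 : ℤ) * c4 ^ 3 = 25 * Δ := by
        have : ((-2 : ℤ) : ℚ) * (c4 : ℚ) ^ 3 = ((25 : ℤ) : ℚ) * (Δ : ℚ) := by
          push_cast
          linear_combination (1 / 5 : ℚ) * hj
        exact_mod_cast this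
      exact five_dvd_both (-2) 25 c4 Δ (by norm_num) (by norm_num) (by norm_num) h
    · have h : (-8 : ℤ) * c4 ^ 3 = 349938025 * Δ := by
        have : ((-8 : ℤ) : ℚ) * (c4 : ℚ) ^ 3 = ((349938025 : ℤ) : ℚ) * (Δ : ℚ) := by
          push_cast
          linear_combination (1 / 5 : ℚ) * hj
        exact_mod_cast this
      exact five_dvd_both (-8) 349938025 c4 Δ (by norm_num) (by norm_num) (by norm_num) h
    · have h : (-32 : ℤ) * c4 ^ 3 = 121945 * Δ := by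
        have : ((-32 : ℤ) : ℚ) * (c4 : ℚ) ^ 3 = ((121945 : ℤ) : ℚ) * (Δ : ℚ) := by
          push_cast
          linear_combination (64 / 25 : ℚ) * hj
        exact_mod_cast this
      exact five_dvd_both (-32) 121945 c4 Δ (by norm_num) (by norm_num) (by norm_num) h
    · have h : (32768 : ℤ) * c4 ^ 3 = 46969655 * Δ := by
        have : ((32768 : ℤ) : ℚ) * (c4 : ℚ) ^ 3 = ((46969655 : ℤ) : ℚ) * (Δ : ℚ) := by
          push_cast
          linear_combination (-262144 / 25 : ℚ) * hj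
        exact_mod_cast this
      exact five_dvd_both 32768 46969655 c4 Δ (by norm_num) (by norm_num) (by norm_num) h
  exact hss 5 (by norm_num) (by exact_mod_cast key.2) (by exact_mod_cast key.1)

end Fermat.Agent.S51_helper89
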