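import Mathlib

set_option autoImplicit false

namespace Fermat.Agent.S51_helper89

/-- 3-isogeny side: a rational root of the 3-division polynomial gives `s` with
`c4^3 s = Δ (s+27)(s+3)^3`. -/
theorem fe_three (b2 b4 b6 b8 : ℚ) (hrel : 4 * b8 = b2 * b6 - b4 ^ 2) (x : ℚ)
    (hx : 3 * x ^ 4 + b2 * x ^ 3 + 3 * b4 * x ^ 2 + 3 * b6 * x + b8 = 0) :
    ∃ s : ℚ, (b2 ^ 2 - 24 * b4) ^ 3 * s =
      (-b2 ^ 2 * b8 - 8 * b4 ^ 3 - 27 * b6 ^ 2 + 9 * b2 * b4 * b6) *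
        ((s + 27) * (s + 3) ^ 3) := by
  obtain ⟨B2, hB2⟩ : ∃ B2 : ℚ, B2 = b2 + 12 * x := ⟨_, rfl⟩
  obtain ⟨B4, hB4⟩ : ∃ B4 : ℚ, B4 = b4 + x * b2 + 6 * x ^ 2 := ⟨_, rfl⟩
  obtain ⟨B6, hB6⟩ : ∃ B6 : ℚ, B6 = b6 + 2 * x * b4 + x ^ 2 * b2 + 4 * x ^ 3 := ⟨_, rfl⟩
  have hB : B2 * B6 = B4 ^ 2 := by
    rw [hB2, hB4, hB6]
    linear_combination 4 * hx - hrel
  have hc4 : b2 ^ 2 - 24 * b4 = B2 ^ 2 - 24 * B4 := by
    rw [hB2, hB4]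
    ring
  have hΔ : -b2 ^ 2 * b8 - 8 * b4 ^ 3 - 27 * b6 ^ 2 + 9 * b2 * b4 * b6 =
      -8 * B4 ^ 3 - 27 * B6 ^ 2 + 9 * B2 * B4 * B6 := by
    rw [hB2, hB4, hB6]
    linear_combination (6 * x * b2 + 36 * x ^ 2) * hrel - (b2 + 12 * x) ^ 2 * hx
  rw [hc4, hΔ]
  by_cases h4 : B4 = 0
  · by_cases h2 : B2 = 0
    · refine ⟨-27, ?_⟩
      rw [h4, h2]
      ring
    · have h6 : B6 = 0 := by
        have : B2 * B6 = 0 := by rw [hB, h4]; ring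
        rcases mul_eq_zero.mp this with h | h
        · exact absurd h h2
        · exact h
      refine ⟨0, ?_⟩
      rw [h4, h6]
      ring
  · obtain ⟨s, hs⟩ : ∃ s : ℚ, s * B4 = B2 ^ 2 - 27 * B4 :=
      ⟨(B2 ^ 2 - 27 * B4) / B4, by field_simp⟩
    refine ⟨s, ?_⟩
    have h1 : (s + 27) * B4 = B2 ^ 2 := by linear_combination hs
    have h2 : (s + 3) * B4 = B2 ^ 2 - 24 * B4 := by linear_combination hs
    have h3 : B4 ^ 4 * s = (-8 * B4 ^ 3 - 27 * B6 ^ 2 + 9 * B2 * B4 * B6) * B2 ^ 2 := by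
      linear_combination B4 ^ 3 * hs + (27 * B2 * B6 + 27 * B4 ^ 2 - 9 * B2 ^ 2 * B4) * hB
    apply mul_left_cancel₀ (pow_ne_zero 4 h4)
    have e1 : B4 ^ 4 * ((-8 * B4 ^ 3 - 27 * B6 ^ 2 + 9 * B2 * B4 * B6) * ((s + 27) * (s + 3) ^ 3)) =
        (-8 * B4 ^ 3 - 27 * B6 ^ 2 + 9 * B2 * B4 * B6) * ((s + 27) * B4) * ((s + 3) * B4) ^ 3 := by
      ring
    rw [e1, h1, h2]
    linear_combination (B2 ^ 2 - 24 * B4) ^ 3 * h3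

/-- 5-isogeny side: the `x`-coordinates `α, β` of a Galois-stable subgroup of order 5
(swapped by the duplication map) give `t` with `c4^3 t = Δ (t^2+10t+5)^3`. -/
theorem fe_five {K : Type*} [Field K] [Algebra ℚ K] [CharZero K] (b2 b4 b6 b8 : ℚ)
    (hrel : 4 * b8 = b2 * b6 - b4 ^ 2)
    (hΔ : -b2 ^ 2 * b8 - 8 * b4 ^ 3 - 27 * b6 ^ 2 + 9 * b2 * b4 * b6 ≠ 0)
    (e1 e2 : ℚ) (α β : K)
    (hsum : α + β = algebraMap ℚ K e1) (hprod : α * β = algebraMap ℚ K e2) (hne : α ≠ β)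
    (h1 : α ^ 4 - algebraMap ℚ K b4 * α ^ 2 - 2 * algebraMap ℚ K b6 * α - algebraMap ℚ K b8 =
      β * (4 * α ^ 3 + algebraMap ℚ K b2 * α ^ 2 + 2 * algebraMap ℚ K b4 * α + algebraMap ℚ K b6))
    (h2 : β ^ 4 - algebraMap ℚ K b4 * β ^ 2 - 2 * algebraMap ℚ K b6 * β - algebraMap ℚ K b8 =
      α * (4 * β ^ 3 + algebraMap ℚ K b2 * β ^ 2 + 2 * algebraMap ℚ K b4 * β + algebraMap ℚ K b6)) :
    ∃ t : ℚ, t ≠ 0 ∧ (b2 ^ 2 - 24 * b4) ^ 3 * t =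
      (-b2 ^ 2 * b8 - 8 * b4 ^ 3 - 27 * b6 ^ 2 + 9 * b2 * b4 * b6) * (t ^ 2 + 10 * t + 5) ^ 3 := by
  have hinj : Function.Injective (algebraMap ℚ K) := (algebraMap ℚ K).injective
  obtain ⟨r, hr⟩ : ∃ r : ℚ, r = e1 / 2 := ⟨_, rfl⟩
  obtain ⟨δ, hδ⟩ : ∃ δ : ℚ, δ = (e1 ^ 2 - 4 * e2) / 4 := ⟨_, rfl⟩
  obtain ⟨B2, hB2⟩ : ∃ B2 : ℚ, B2 = b2 + 12 * r := ⟨_, rfl⟩
  obtain ⟨B4, hB4⟩ : ∃ B4 : ℚ, B4 = b4 + r * b2 + 6 * r ^ 2 := ⟨_, rfl⟩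
  obtain ⟨B6, hB6⟩ : ∃ B6 : ℚ, B6 = b6 + 2 * r * b4 + r ^ 2 * b2 + 4 * r ^ 3 := ⟨_, rfl⟩
  obtain ⟨B8, hB8⟩ : ∃ B8 : ℚ,
      B8 = b8 + 3 * r * b6 + 3 * r ^ 2 * b4 + r ^ 3 * b2 + 3 * r ^ 4 := ⟨_, rfl⟩
  -- images in K
  have hrK : algebraMap ℚ K r = (α + β) / 2 := by
    rw [hr, hsum, map_div₀]
    simp
  have hδK : algebraMap ℚ K δ = ((α - β) / 2) ^ 2 := by
    rw [hδ, map_div₀, map_sub, map_pow, map_mul, ← hsum, ← hprod]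
    simp only [map_ofNat]
    ring
  have hδ0 : δ ≠ 0 := by
    intro h0
    rw [h0, map_zero] at hδK
    have : (α - β) / 2 = 0 := by
      have := hδK.symm
      exact pow_eq_zero_iff (two_ne_zero) |>.mp this
    have h3 : α - β = 0 := by linear_combination (2 : K) * this
    exact hne (sub_eq_zero.mp h3)
  have hαβ : α - β ≠ 0 := sub_ne_zero.mpr hne
  -- the two key relations
  have R2 : B8 = 5 * δ ^ 2 + B4 * δ := by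
    apply hinj
    rw [hB8, hB4]
    simp only [map_add, map_mul, map_pow, map_ofNat]
    rw [hδK, hrK]
    linear_combination (-1 / 2 : K) * h1 + (-1 / 2 : K) * h2
  have R1 : B6 = B2 * δ := by
    apply hinj
    have : (α - β) * (algebraMap ℚ K B6 - algebraMap ℚ K (B2 * δ)) = 0 := by
      rw [hB6, hB2]
      simp only [map_add, map_mul, map_pow, map_ofNat]
      rw [hδK, hrK]
      linear_combination (-1 : K) * h1 + (1 : K) * h2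
    rcases mul_eq_zero.mp this with h | h
    · exact absurd h hαβ
    · exact sub_eq_zero.mp h
  -- now pure rational algebra
  have hrelB : 4 * B8 = B2 * B6 - B4 ^ 2 := by
    rw [hB8, hB2, hB6, hB4]
    linear_combination hrel
  have hc4 : b2 ^ 2 - 24 * b4 = B2 ^ 2 - 24 * B4 := by
    rw [hB2, hB4]
    ring
  have hΔB : -b2 ^ 2 * b8 - 8 * b4 ^ 3 - 27 * b6 ^ 2 + 9 * b2 * b4 * b6 =
      -B2 ^ 2 * B8 - 8 * B4 ^ 3 - 27 * B6 ^ 2 + 9 * B2 * B4 * B6 := by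
    rw [hB2, hB4, hB6, hB8]
    linear_combination (6 * r * b2 + 36 * r ^ 2) * hrel
  have hB2sq : B2 ^ 2 * δ = B4 ^ 2 + 4 * B4 * δ + 20 * δ ^ 2 := by
    rw [R1, R2] at hrelB
    linear_combination (-1 : ℚ) * hrelB
  obtain ⟨t, ht⟩ : ∃ t : ℚ, t * (2 * δ) = B4 - 20 * δ :=
    ⟨(B4 - 20 * δ) / (2 * δ), by field_simp⟩
  have hB4t : B4 = 2 * δ * t + 20 * δ := by linear_combination (-1 : ℚ) * ht
  have hc4t : B2 ^ 2 - 24 * B4 = 4 * δ * (t ^ 2 + 10 * t + 5) := by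
    apply mul_left_cancel₀ hδ0
    rw [hB4t] at hB2sq ⊢
    linear_combination hB2sq
  have hΔt : -B2 ^ 2 * B8 - 8 * B4 ^ 3 - 27 * B6 ^ 2 + 9 * B2 * B4 * B6 = 64 * δ ^ 3 * t := by
    rw [R1, R2]
    rw [hB4t] at hB2sq ⊢
    linear_combination (8 * (2 * δ * t + 20 * δ) - 32 * δ) * hB2sq
  refine ⟨t, ?_, ?_⟩
  · intro ht0
    apply hΔ
    rw [hΔB, hΔt, ht0]
    ring
  · rw [hc4, hΔB, hc4t, hΔt]
    ring

end Fermat.Agent.S51_helper89
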