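import Fermat.Agent.S51_helper89.X015
import Fermat.Agent.S51_helper89.Endgame
import Fermat.Agent.S51_helper89.FrontEnd
import Fermat.Prelude.Def_FLTPrelim_Modularity

set_option autoImplicit false

namespace Fermat.Agent.S51_helper89

/-- A semistable integral Weierstrass curve cannot carry both a rational root of its
3-division polynomial and the `x`-coordinate data of a rational subgroup of order 5
(given the rational points of `Y^2 = X(X+9)(X-16)`). -/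
theorem false_of_three_five_data
    (hC : ∀ X Y : ℚ, Y ^ 2 = X * (X + 9) * (X - 16) →
      X = 0 ∨ X = -9 ∨ X = 16 ∨ X = 36 ∨ X = -4)
    (W : WeierstrassCurve ℤ) (hΔ : W.Δ ≠ 0) (hW : W.IsSemistableModel)
    (x : ℚ)
    (hx : 3 * x ^ 4 + (W.b₂ : ℚ) * x ^ 3 + 3 * (W.b₄ : ℚ) * x ^ 2 + 3 * (W.b₆ : ℚ) * x
      + (W.b₈ : ℚ) = 0)
    {K : Type*} [Field K] [Algebra ℚ K] [CharZero K]
    (e1 e2 : ℚ) (α β : K)
    (hsum : α + β = algebraMap ℚ K e1) (hprod : α * β = algebraMap ℚ K e2) (hne : α ≠ β)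
    (h1 : α ^ 4 - algebraMap ℚ K (W.b₄ : ℚ) * α ^ 2 - 2 * algebraMap ℚ K (W.b₆ : ℚ) * α
        - algebraMap ℚ K (W.b₈ : ℚ) =
      β * (4 * α ^ 3 + algebraMap ℚ K (W.b₂ : ℚ) * α ^ 2 + 2 * algebraMap ℚ K (W.b₄ : ℚ) * α
        + algebraMap ℚ K (W.b₆ : ℚ)))
    (h2 : β ^ 4 - algebraMap ℚ K (W.b₄ : ℚ) * β ^ 2 - 2 * algebraMap ℚ K (W.b₆ : ℚ) * β
        - algebraMap ℚ K (W.b₈ : ℚ) =
      α * (4 * β ^ 3 + algebraMap ℚ K (W.b₂ : ℚ) * β ^ 2 + 2 * algebraMap ℚ K (W.b₄ : ℚ) * β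
        + algebraMap ℚ K (W.b₆ : ℚ))) : False := by
  have hrel : 4 * (W.b₈ : ℚ) = (W.b₂ : ℚ) * (W.b₆ : ℚ) - (W.b₄ : ℚ) ^ 2 := by
    exact_mod_cast W.b_relation
  have hΔq : (W.Δ : ℚ) = -(W.b₂ : ℚ) ^ 2 * (W.b₈ : ℚ) - 8 * (W.b₄ : ℚ) ^ 3
      - 27 * (W.b₆ : ℚ) ^ 2 + 9 * (W.b₂ : ℚ) * (W.b₄ : ℚ) * (W.b₆ : ℚ) := by
    rw [WeierstrassCurve.Δ]
    push_cast
    ring
  have hc4q : (W.c₄ : ℚ) = (W.b₂ : ℚ) ^ 2 - 24 * (W.b₄ : ℚ) := by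
    rw [WeierstrassCurve.c₄]
    push_cast
    ring
  have hΔ0 : (W.Δ : ℚ) ≠ 0 := by exact_mod_cast hΔ
  obtain ⟨s, hs⟩ := fe_three (W.b₂ : ℚ) (W.b₄ : ℚ) (W.b₆ : ℚ) (W.b₈ : ℚ) hrel x hx
  obtain ⟨t, ht0, ht⟩ := fe_five (W.b₂ : ℚ) (W.b₄ : ℚ) (W.b₆ : ℚ) (W.b₈ : ℚ) hrel
    (by rw [← hΔq]; exact hΔ0) e1 e2 α β hsum hprod hne h1 h2
  rw [← hc4q, ← hΔq] at hs ht
  have hF : (s + 27) * (s + 3) ^ 3 * t = (t ^ 2 + 10 * t + 5) ^ 3 * s := by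
    apply mul_left_cancel₀ hΔ0
    linear_combination s * ht - t * hs
  have htl := x015_rational_points hC s t ht0 hF
  exact endgame W.c₄ W.Δ hW t htl ht

end Fermat.Agent.S51_helper89
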