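import Mathlib

set_option autoImplicit false

namespace Fermat.Agent.S51_helper89

/-- denominator polynomial -/
def dPoly (t : ℚ) : ℚ := t^6 + 24*t^5 + 189*t^4 + 520*t^3 + 315*t^2 + (-25)

def nuPoly (s t : ℚ) : ℚ :=
      (5/18)*s^3*t + (5/36)*s^2*t^2 + (95/9)*s^2*t + (25/36)*s^2 + (-5/36)*s*t^4 + (-25/9)*s*t^3 +
      (-100/9)*s*t^2 + (1355/18)*s*t + (625/36)*s + (-1/4)*t^6 + (-29/4)*t^5 + (-299/4)*t^4 +
      (-635/2)*t^3 + (-935/2)*t^2 + (-405/4)*t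

def nvPoly (s t : ℚ) : ℚ :=
      (-10/9)*s^3*t + (-25/18)*s^3 + (-5/4)*s^2*t^2 + (-295/6)*s^2*t + (-625/12)*s^2 + (-5/36)*s*t^4 +
      (-25/9)*s*t^3 + (-475/9)*s*t^2 + (-5210/9)*s*t + (-15425/36)*s + (5/4)*t^6 + (165/4)*t^5 +
      (1985/4)*t^4 + (5175/2)*t^3 + (10535/2)*t^2 + (9995/4)*t

def c1Poly (s t : ℚ) : ℚ :=
      (250/81)*s^5*t^2 + (125/27)*s^4*t^3 + (6500/27)*s^4*t^2 + (625/27)*s^4*t + (-125/27)*s^3*t^5 +
      (-1625/18)*s^3*t^4 + (-5000/27)*s^3*t^3 + (57625/9)*s^3*t^2 + (40625/27)*s^3*t + (3125/54)*s^3 +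
      (-125/36)*s^2*t^7 + (-8750/81)*s^2*t^6 + (-16625/12)*s^2*t^5 + (-82000/9)*s^2*t^4 +
      (-7188875/324)*s^2*t^3 + 62750*s^2*t^2 + (3295625/108)*s^2*t + (237500/81)*s^2 +
      (625/324)*s*t^8 + (-7375/162)*s*t^7 + (-213625/81)*s*t^6 + (-5806375/162)*s*t^5 +
      (-16522625/81)*s*t^4 + (-71995625/162)*s*t^3 + (6565250/81)*s*t^2 + (28384375/162)*s*t +
      (12034375/324)*s + (125/36)*t^10 + (6125/36)*t^9 + (41375/12)*t^8 + (1309375/36)*t^7 +
      (406125/2)*t^6 + (2014875/4)*t^5 + (35875/2)*t^4 + (-57155875/36)*t^3 + (-13589125/12)*t^2 +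
      (-1945625/9)*t + (3125/36)

def c2Poly (s t : ℚ) : ℚ :=
      (-10000/9)*s^8*t^5 + (-20000/9)*s^7*t^6 + (-1160000/9)*s^7*t^5 + (-100000/9)*s^7*t^4 +
      (20000/9)*s^6*t^8 + (385000/9)*s^6*t^7 + (40000/9)*s^6*t^6 + (-53170000/9)*s^6*t^5 +
      (-10300000/9)*s^6*t^4 + (-125000/3)*s^6*t^3 + (20000/9)*s^5*t^10 + 70000*s^5*t^9 +
      (8635000/9)*s^5*t^8 + (62750000/9)*s^5*t^7 + (45355000/3)*s^5*t^6 + (-1191830000/9)*s^5*t^5 +
      (-403175000/9)*s^5*t^4 + (-3750000)*s^5*t^3 + (-625000/9)*s^5*t^2 + (10000/9)*s^4*t^11 +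
      (1705000/9)*s^4*t^10 + (47569375/9)*s^4*t^9 + (186490000/3)*s^4*t^8 + (3225567500/9)*s^4*t^7 +
      (7143820000/9)*s^4*t^6 + (-12311093750/9)*s^4*t^5 + (-2418050000/3)*s^4*t^4 +
      (-1099562500/9)*s^4*t^3 + (-48125000/9)*s^4*t^2 + (-390625/9)*s^4*t + (-25000/9)*s^3*t^13 +
      (-1257500/9)*s^3*t^12 + (-25157500/9)*s^3*t^11 + (-24592500)*s^3*t^10 + (-303580000/9)*s^3*t^9 +
      (3010265000/3)*s^3*t^8 + 7219175000*s^3*t^7 + (49677355000/3)*s^3*t^6 +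
      (-18000055000/9)*s^3*t^5 + (-5948137500)*s^3*t^4 + (-14973437500/9)*s^3*t^3 +
      (-1265312500/9)*s^3*t^2 + (-25000000/9)*s^3*t + (-10000/9)*s^2*t^15 + (-617500/9)*s^2*t^14 +
      (-17300000/9)*s^2*t^13 + (-289482500/9)*s^2*t^12 + (-3145092500/9)*s^2*t^11 +
      (-21992785000/9)*s^2*t^10 + (-88646866250/9)*s^2*t^9 + (-127346345000/9)*s^2*t^8 +
      (347345255000/9)*s^2*t^7 + (1281898332500/9)*s^2*t^6 + (638971782500/9)*s^2*t^5 +
      (-9385212500/9)*s^2*t^4 + (-63420812500/9)*s^2*t^3 + (-12171250000/9)*s^2*t^2 +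
      (-535156250/9)*s^2*t + (2500/9)*s*t^16 + (-156250/9)*s*t^15 + (-15195625/9)*s*t^14 +
      (-153987500/3)*s*t^13 + (-7542229375/9)*s*t^12 + (-75371566250/9)*s*t^11 +
      (-477916518125/9)*s*t^10 + (-626123395000/3)*s*t^9 + (-4112416761875/9)*s*t^8 +
      (-1141395256250/3)*s*t^7 + (1861579808125/9)*s*t^6 + (3104059677500/9)*s*t^5 +
      (1198313196875/9)*s*t^4 + (42757343750/3)*s*t^3 + (-19450234375/9)*s*t^2 + (-4118750000/9)*s*t +
      (-48828125/9)*s + (5000/9)*t^18 + (134375/3)*t^17 + (4789375/3)*t^16 + 32816250*t^15 +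
      424478750*t^14 + (10530111250/3)*t^13 + (52579103750/3)*t^12 + (116920141250/3)*t^11 +
      (-82503153750)*t^10 + (-7512596948125/9)*t^9 + (-2425321630000)*t^8 + (-10116099486250/3)*t^7 +
      (-6623423326250/3)*t^6 + (-1875481917500/3)*t^5 + (-2729856250)*t^4 + 36937093750*t^3 +
      (15332656250/3)*t^2 + (-1921093750/3)*t + (-1220703125/9)

theorem ident1 (s t : ℚ) (hF : (s + 27) * (s + 3) ^ 3 * t = (t ^ 2 + 10 * t + 5) ^ 3 * s) :
    dPoly t * nvPoly s t ^ 2 =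
      nuPoly s t * (dPoly t + 9 * nuPoly s t) * (dPoly t - 16 * nuPoly s t) := by
  unfold dPoly nuPoly nvPoly
  linear_combination (norm := (unfold c1Poly; ring1)) (c1Poly s t) * hF

theorem ident2 (s t : ℚ) (hF : (s + 27) * (s + 3) ^ 3 * t = (t ^ 2 + 10 * t + 5) ^ 3 * s) :
    t ^ 2 * (dPoly t - 36 * nuPoly s t) ^ 3 * (dPoly t + 4 * nuPoly s t)
      - 500 * t * nuPoly s t * (13 * dPoly t - 108 * nuPoly s t) * dPoly t ^ 2
      - 62500 * nuPoly s t * dPoly t ^ 3 = 0 := by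
  unfold dPoly nuPoly
  linear_combination (norm := (unfold c2Poly; ring1)) (c2Poly s t) * hF

theorem no_sq5 (r : ℚ) : r ^ 2 ≠ 5 := by
  intro h
  have h1 : IsSquare (5 : ℚ) := ⟨r, by rw [← h]; ring⟩
  rw [show (5:ℚ) = ((5:ℕ):ℚ) by norm_num, Rat.isSquare_natCast_iff] at h1
  obtain ⟨k, hk⟩ := h1
  have hk2 : k ≤ 2 := by nlinarith
  interval_cases k <;> omega

theorem quad1_ne (t : ℚ) : t ^ 2 + 4 * t - 1 ≠ 0 := by
  intro h
  exact no_sq5 (t + 2) (by linear_combination h)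

theorem quad2_ne (t : ℚ) : t ^ 2 + 10 * t + 5 ≠ 0 := by
  intro h
  exact no_sq5 ((t + 5) / 2) (by linear_combination h / 4)

theorem dPoly_eq (t : ℚ) : dPoly t = (t ^ 2 + 4 * t - 1) * (t ^ 2 + 10 * t + 5) ^ 2 := by
  unfold dPoly
  ring

theorem dPoly_ne (t : ℚ) : dPoly t ≠ 0 := by
  rw [dPoly_eq]
  exact mul_ne_zero (quad1_ne t) (pow_ne_zero 2 (quad2_ne t))

/-- Rational points on the plane model `(s+27)(s+3)^3 t = (t^2+10t+5)^3 s` of `X_0(15)`,
given the rational points of `Y^2 = X(X+9)(X-16)`. -/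
theorem x015_rational_points
    (hC : ∀ X Y : ℚ, Y ^ 2 = X * (X + 9) * (X - 16) →
      X = 0 ∨ X = -9 ∨ X = 16 ∨ X = 36 ∨ X = -4)
    (s t : ℚ) (ht : t ≠ 0)
    (hF : (s + 27) * (s + 3) ^ 3 * t = (t ^ 2 + 10 * t + 5) ^ 3 * s) :
    t = -10 ∨ t = -40 ∨ t = -25 / 2 ∨ t = -25 / 8 := by
  have hd : dPoly t ≠ 0 := dPoly_ne t
  have h1 := ident1 s t hF
  have h2 := ident2 s t hF
  obtain ⟨U, hU⟩ : ∃ U : ℚ, nuPoly s t = U * dPoly t := ⟨nuPoly s t / dPoly t, by field_simp⟩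
  obtain ⟨V, hV⟩ : ∃ V : ℚ, nvPoly s t = V * dPoly t := ⟨nvPoly s t / dPoly t, by field_simp⟩
  rw [hU, hV] at h1
  rw [hU] at h2
  have hd3 : dPoly t ^ 3 ≠ 0 := pow_ne_zero 3 hd
  have hd4 : dPoly t ^ 4 ≠ 0 := pow_ne_zero 4 hd
  -- curve equation in (U, V)
  have e1 : V ^ 2 = U * (1 + 9 * U) * (1 - 16 * U) := by
    apply mul_left_cancel₀ hd3
    linear_combination h1
  -- relation between U and t
  have e2 : t ^ 2 * (1 - 36 * U) ^ 3 * (1 + 4 * U) - 500 * t * U * (13 - 108 * U) - 62500 * U = 0 := by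
    apply mul_left_cancel₀ hd4
    linear_combination h2
  by_cases hU0 : U = 0
  · exfalso
    rw [hU0] at e2
    apply ht
    have : t ^ 2 = 0 := by linear_combination e2
    exact pow_eq_zero_iff (two_ne_zero) |>.mp this
  · -- the rational point (1/U, V/U^2)
    have hpt : (V / U ^ 2) ^ 2 = (1 / U) * (1 / U + 9) * (1 / U - 16) := by
      field_simp
      linear_combination e1
    have hX := hC (1 / U) (V / U ^ 2) hpt
    rcases hX with hX | hX | hX | hX | hX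
    · exfalso
      rw [one_div, inv_eq_zero] at hX
      exact hU0 hX
    · have hUv : U = -1 / 9 := by
        field_simp at hX
        linarith
      rw [hUv] at e2
      left
      have : (t + 10) ^ 2 = 0 := by linear_combination (9 / 625 : ℚ) * e2
      have := pow_eq_zero_iff (two_ne_zero) |>.mp this
      linarith
    · have hUv : U = 1 / 16 := by
        field_simp at hX
        linarith
      rw [hUv] at e2
      right; left
      have : (t + 40) ^ 2 = 0 := by linear_combination (-256 / 625 : ℚ) * e2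
      have := pow_eq_zero_iff (two_ne_zero) |>.mp this
      linarith
    · have hUv : U = 1 / 36 := by
        field_simp at hX
        linarith
      rw [hUv] at e2
      right; right; left
      linear_combination (-36 / 5000 : ℚ) * e2
    · have hUv : U = -1 / 4 := by
        field_simp at hX
        linarith
      rw [hUv] at e2
      right; right; right
      linear_combination (1 / 5000 : ℚ) * e2

end Fermat.Agent.S51_helper89
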